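/-
Cluster E' / B, package RedTr (helper5): TRANSFER of Deuring's reduction of places DOWN a finite
extension `E ⊆ F` of function fields with compatible constant reductions of the same degree.

Purpose: `ModularCurve.ReductionInputsModL A N` at `ℓ ∈ {2, 3}` for EVERY level `N` with `ℓ ∤ N`
(genus equality is only known at the levels `3 N` (`ℓ = 2`) and `2 N` (`ℓ = 3`)), WITHOUT genus
equality at level `N`:  `r_E (P) := (r_F (P'))|_{E_k}` for any place `P'` of `F` over `P`.

This file: the setting (`Compat`) and the exact statements of the seats as `Prop`s.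
No theorem, no `sorry`.  Provers end their file with `theorem ... : <Prop defined here>`.

Seats (see the board):
* N1 `NormRed`      : norms of integral elements are integral and reduce to norms;
* N2 `NormDegLe`    : `deg (N t)_∞ ≤ deg (t)_∞` (characteristic `0`, from the norm formula);
* L  `RegularLift`  : elements of `F_k` have lifts of the same degree (from `(GR)`);
* W  `WellDefined`  : places of `F` over the same place of `E` reduce to places of `F_k` over the
                      same place of `E_k`;
* P  `PushDown`     : the push property for `r_E`;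
* G  modular glue   : `Compat` for `F_N ⊆ F_M`, `N ∣ M`, `ℓ ∤ M`.
-/
import Mathlib
import Fermat.Agent.Lib.FF.RedCore
import Fermat.Prelude.Def_AlgebraicCurve_Correspondence

set_option autoImplicit false

noncomputable section

open AlgebraicCurve Fermat.Agent.RR Fermat.Agent.Deuring Fermat.Agent.FF

namespace Fermat.Agent.RedTr

variable {K E F k Ek Fk : Type*} [Field K] [Field E] [Field F] [Algebra K E] [Algebra K F]
  [Field k] [Field Ek] [Field Fk] [Algebra k Ek] [Algebra k Fk]

/-- Compatible constant reductions `SE` of `E` and `SF` of `F` along a finite extension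
`φ : E → F`, with residue extension `φk : E_k → F_k` of the same degree. -/
structure Compat (SE : ValSetup K E k Ek) (SF : ValSetup K F k Fk) (φ : E →ₐ[K] F)
    (φk : Ek →ₐ[k] Fk) : Prop where
  /-- the same valuation ring of constants -/
  A_eq : SE.A = SF.A
  /-- `O_E = O_F ∩ E` -/
  mem_iff : ∀ y : E, φ y ∈ SF.Ov ↔ y ∈ SE.Ov
  /-- the reductions are compatible -/
  red_map : ∀ y : E, y ∈ SE.Ov → SF.red (φ y) = φk (SE.red y)
  /-- `F / E` is finite -/
  finite : FiniteAlong K φ
  /-- `F_k / E_k` is finite -/
  finite_k : FiniteAlong k φk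
  /-- `[F : E] = [F_k : E_k]` -/
  finrank_eq : finrankAlong K φ = finrankAlong k φk

variable (SE : ValSetup K E k Ek) (SF : ValSetup K F k Fk) (φ : E →ₐ[K] F) (φk : Ek →ₐ[k] Fk)

/-- **Seat N1**: the norm of an integral element is integral and reduces to the norm of the
reduction. -/
def NormRed : Prop :=
  letI := algebraAlong φ
  letI := algebraAlong φk
  ∀ t : F, t ∈ SF.Ov →
    Algebra.norm E t ∈ SE.Ov ∧ SE.red (Algebra.norm E t) = Algebra.norm Ek (SF.red t)

/-- **Seat N2**: the degree of the pole divisor does not increase under the norm. -/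
def NormDegLe : Prop :=
  letI := algebraAlong φ
  ∀ t : F, Divisor.degree (poleDiv SE.hF (Algebra.norm E t)) ≤ Divisor.degree (poleDiv SF.hF t)

/-- **Seat L**: some power of every nonconstant `s ∈ F_k` has an integral lift of the same
degree. -/
def RegularLift : Prop :=
  ∀ s : Fk, Transcendental k s → ∃ n : ℕ, 0 < n ∧ ∃ t : F, t ∈ SF.Ov ∧ SF.red t = s ^ n ∧
    Divisor.degree (poleDiv SF.hF t) = Divisor.degree (poleDiv SF.hFk (s ^ n))

variable (hφ : φ.toRingHom.IsIntegral) (hφk : φk.toRingHom.IsIntegral)

/-- **Seat W**: the reduction of places of `F` is compatible with the restriction to `E`. -/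
def WellDefined (r : Place K F → Place k Fk) : Prop :=
  ∀ P' P'' : Place K F, P'.restrictAlong φ hφ = P''.restrictAlong φ hφ →
    (r P').restrictAlong φk hφk = (r P'').restrictAlong φk hφk

/-- the push property of a map of places (clause `push` of `FF.IsReduction`). -/
def IsPush (S : ValSetup K E k Ek) (r : Place K E → Place k Ek) : Prop :=
  ∀ f : E, f ∈ S.Ov → f⁻¹ ∈ S.Ov → f ≠ 0 → ∀ Q : Place k Ek,
    Finsupp.mapDomain r (divOf S.hF f) Q = Q.ord (S.red f)

/-- **Seat P**: a map `rE` of places of `E` compatible with `r` has the push property. -/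
def PushDown (r : Place K F → Place k Fk) : Prop :=
  ∀ rE : Place K E → Place k Ek,
    (∀ P' : Place K F, rE (P'.restrictAlong φ hφ) = (r P').restrictAlong φk hφk) →
      IsPush SE rE

end Fermat.Agent.RedTr
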