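/-
Cluster E' / B, package RedTr, seat L (helper92): REGULAR LIFTS.

For a Deuring reduction `r` of the constant reduction `SF` (genus equality `hg`), some power of
every nonconstant `s ∈ F_k` has an integral lift `t ∈ O_F` of the same degree:
`deg (t)_∞ = deg (s ^ n)_∞`.

Proof: `n := 2 g + 1`, `D := (s ^ n)_∞ = n (s)_∞` has degree `≥ 2 g`; lift `D` along a section of
the (surjective) map `r` to a divisor `B ≥ 0` with `r_* B = D`; by `(GR)` the function `s ^ n` of
`L_k (r_* B)` lifts to `t ∈ L(B) ∩ O_F`; then `(t)_∞ ≤ B`, so `deg (t)_∞ ≤ deg (s ^ n)_∞`, and the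
fundamental inequality gives the converse.
-/
import Mathlib
import Fermat.Agent.Lib.RedTr.Defs
import Fermat.Agent.Lib.RR.Hurwitz.Val

set_option autoImplicit false

noncomputable section

open AlgebraicCurve Fermat.Agent.RR Fermat.Agent.Deuring Fermat.Agent.FF

namespace Fermat.Agent.RedTr

variable {K F k Fk : Type*} [Field K] [Field F] [Algebra K F]
  [Field k] [Field Fk] [Algebra k Fk]

/-- the order of a power. -/
theorem regLift_ord_pow (v : Place K F) (f : F) (n : ℕ) : v.ord (f ^ n) = n * v.ord f := by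
  induction n with
  | zero => simp [Place.ord_one]
  | succ m ih =>
    rcases eq_or_ne f 0 with rfl | hf
    · rw [zero_pow (Nat.succ_ne_zero m), Place.ord_zero, mul_zero]
    · rw [pow_succ, v.ord_mul (pow_ne_zero m hf) hf, ih]
      push_cast
      ring

/-- the pole divisor of a power. -/
theorem regLift_poleDiv_pow (h : IsRRField K F) (f : F) (n : ℕ) :
    poleDiv h (f ^ n) = n • poleDiv h f := by
  ext v
  rw [Finsupp.smul_apply, poleDiv_apply, poleDiv_apply, regLift_ord_pow, nsmul_eq_mul]
  have hn : (0 : ℤ) ≤ (n : ℤ) := Int.natCast_nonneg n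
  rcases le_total (v.ord f) 0 with h0 | h0
  · rw [max_eq_left (by nlinarith), max_eq_left (by omega)]
    ring
  · rw [max_eq_right (by nlinarith), max_eq_right (by omega), mul_zero]

/-- every divisor of the special fibre is the reduction of a divisor of the same sign. -/
theorem regLift_exists_redDiv_eq {r : Place K F → Place k Fk} (hsurj : Function.Surjective r)
    {D : Divisor k Fk} (hD : 0 ≤ D) : ∃ B : Divisor K F, 0 ≤ B ∧ redDiv r B = D := by
  refine ⟨redDiv (Function.surjInv hsurj) D, redDiv_nonneg _ hD, ?_⟩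
  rw [redDiv_apply, redDiv_apply, ← Finsupp.mapDomain_comp]
  have : r ∘ Function.surjInv hsurj = id := by
    funext Q
    exact Function.surjInv_eq hsurj Q
  rw [this, Finsupp.mapDomain_id]

/-- **Seat L**: regular lifts of powers, from Deuring's reduction map. -/
theorem regularLift {SF : ValSetup K F k Fk} {r : Place K F → Place k Fk}
    (hr : IsReduction SF r) (hg : genusFF K F = genusFF k Fk) : RegularLift SF := by
  intro s hs
  have hpos : 0 < Divisor.degree (poleDiv SF.hFk s) :=
    Fermat.Agent.RRHur.degree_poleDiv_pos SF.hFk hs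
  refine ⟨2 * genusFF K F + 1, Nat.succ_pos _, ?_⟩
  set n : ℕ := 2 * genusFF K F + 1 with hn
  have hdegD : Divisor.degree (poleDiv SF.hFk (s ^ n)) =
      (n : ℤ) * Divisor.degree (poleDiv SF.hFk s) := by
    rw [regLift_poleDiv_pow, map_nsmul, nsmul_eq_mul]
  obtain ⟨B, hB0, hBD⟩ := regLift_exists_redDiv_eq (hr.surjective hg)
    (poleDiv_nonneg SF.hFk (s ^ n))
  have hdegB : Divisor.degree B = Divisor.degree (poleDiv SF.hFk (s ^ n)) := by
    rw [← hBD, hr.degree_redDiv]
  have hB : 2 * (genusFF K F : ℤ) ≤ Divisor.degree B := by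
    rw [hdegB, hdegD, hn]
    push_cast
    nlinarith
  have hmem : s ^ n ∈ riemannRochSpace (redDiv r B) := by
    rw [hBD]
    exact mem_riemannRochSpace_poleDiv SF.hFk (s ^ n)
  obtain ⟨t, htB, htO, hts⟩ := hr.exists_lift hB hmem
  refine ⟨t, htO, hts, le_antisymm ?_ ?_⟩
  · rw [← hdegB]
    exact degree_mono SF.hF (fi_poleDiv_le SF.hF hB0 htB)
  · have htr : Transcendental k (SF.red t) := by
      rw [hts]
      exact hs.pow (Nat.succ_pos _)
    have := degree_poleDiv_red_le SF htO htr
    rwa [hts] at this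

end Fermat.Agent.RedTr
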