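/-
Package RedTr (helper5), seat W: WELL-DEFINEDNESS of `r_E (P) := (r_F (P'))|_{E_k}`.

If `P'` and `P''` are places of `F` over the same place `P` of `E`, then `r P'` and `r P''` lie
over the same place of `E_k` (norm trick: a function of `E_k` separating the two restrictions has
a power whose lift to `F` has a norm to `E` of the same degree as its reduction).
-/
import Mathlib
import Fermat.Agent.Lib.RedTr.Basic
import Fermat.Agent.Lib.FF.RedValue

set_option autoImplicit false
set_option linter.style.haveILetI false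
set_option linter.unusedSectionVars false

noncomputable section

open AlgebraicCurve Fermat.Agent.RR Fermat.Agent.Deuring Fermat.Agent.FF

namespace Fermat.Agent.RedTr

section Sep

variable {k Ek : Type*} [Field k] [Field Ek] [Algebra k Ek]

/-- membership in the valuation ring from the order. -/
theorem wd_ord_nonneg_of_sub (Q : Place k Ek) {a b : Ek} (h1 : 0 ≤ Q.ord (a - b))
    (h2 : 0 ≤ Q.ord b) : 0 ≤ Q.ord a := by
  have h3 := Fermat.Agent.S24Res.mem_of_ord_nonneg Q h1
  have h4 := Fermat.Agent.S24Res.mem_of_ord_nonneg Q h2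
  have h5 := add_mem h3 h4
  rw [sub_add_cancel] at h5
  exact Fermat.Agent.S24Res.ord_nonneg_of_mem Q h5

/-- distinct places are separated by a function with a zero at the first and a pole at the
second. -/
theorem wd_exists_sep (h : IsRRField k Ek) (Q₁ Q₂ : Place k Ek) (hne : Q₁ ≠ Q₂) :
    ∃ s : Ek, 0 < Q₁.ord s ∧ Q₂.ord s < 0 := by
  -- a function regular at `Q₁` with a pole at `Q₂`
  have hex : ∃ f : Ek, 0 ≤ Q₁.ord f ∧ Q₂.ord f < 0 := by
    by_contra hcon
    have hcon : ∀ f : Ek, 0 ≤ Q₁.ord f → 0 ≤ Q₂.ord f := fun f hf => by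
      by_contra hlt
      exact hcon ⟨f, hf, not_le.mp hlt⟩
    have hle : Q₁.toValuationSubring ≤ Q₂.toValuationSubring := fun f hf =>
      Fermat.Agent.S24Res.mem_of_ord_nonneg Q₂
        (hcon f (Fermat.Agent.S24Res.ord_nonneg_of_mem Q₁ hf))
    have h1 := ValuationSubring.eq_of_le_of_ne_top _ hle Q₂.ne_top'
    exact hne (Place.ext h1)
  obtain ⟨f, hf1, hf2⟩ := hex
  obtain ⟨c, hc | hc⟩ := exists_const_sub h Q₁ hf1
  · exfalso
    rw [hc, Fermat.Agent.S24Res.ord_algebraMap] at hf2
    exact lt_irrefl _ hf2
  · refine ⟨f - algebraMap k Ek c, hc, ?_⟩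
    by_contra hcon
    have h0 : 0 ≤ Q₂.ord (f - algebraMap k Ek c) := not_lt.mp hcon
    have := wd_ord_nonneg_of_sub Q₂ h0 (by rw [Fermat.Agent.S24Res.ord_algebraMap])
    omega

/-- order of a power. -/
theorem wd_ord_pow (v : Place k Ek) (f : Ek) (n : ℕ) : v.ord (f ^ n) = n * v.ord f := by
  have := v.ord_zpow f (n : ℤ)
  rwa [zpow_natCast] at this

/-- the pole divisor of a power. -/
theorem wd_poleDiv_pow (h : IsRRField k Ek) (f : Ek) (n : ℕ) :
    poleDiv h (f ^ n) = n • poleDiv h f := by
  ext v
  rw [poleDiv_apply, Finsupp.smul_apply, poleDiv_apply, wd_ord_pow, nsmul_eq_mul,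
    mul_max_of_nonneg _ _ (Int.natCast_nonneg n), mul_zero, mul_neg]

/-- an element with a zero is transcendental. -/
theorem wd_transcendental (Q : Place k Ek) {f : Ek} (hf : Q.ord f ≠ 0) : Transcendental k f := by
  intro halg
  have hf0 : f ≠ 0 := by
    rintro rfl
    exact hf Q.ord_zero
  exact hf (ord_eq_zero_of_isAlgebraic Q hf0 halg)

end Sep

variable {K E F k Ek Fk : Type*} [Field K] [Field E] [Field F] [Algebra K E] [Algebra K F]
  [Field k] [Field Ek] [Field Fk] [Algebra k Ek] [Algebra k Fk]

variable {SE : ValSetup K E k Ek} {SF : ValSetup K F k Fk} {φ : E →ₐ[K] F} {φk : Ek →ₐ[k] Fk}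
  {hφ : φ.toRingHom.IsIntegral} {hφk : φk.toRingHom.IsIntegral}
  {r : Place K F → Place k Fk}

/-- transcendence is preserved by a morphism of fields. -/
theorem wd_transcendental_map {s : Ek} (hs : Transcendental k s) : Transcendental k (φk s) :=
  fun h => hs ((isAlgebraic_algHom_iff φk φk.injective).mp h)

/-- **the value lemma**: if `z ∈ O_E` has the same degree as its (nonconstant) reduction and
takes an integral value `c ∈ A` at the place of `E` under `W`, then the reduction of `z` has no
pole at the place of `E_k` under `r W`. -/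
theorem wd_value (C : Compat SE SF φ φk) (hr : IsReduction SF r)
    [HasPrincipalDivisors K F] [HasPrincipalDivisors k Fk]
    (hFIK : FundamentalIdentityAlong K φ hφ) (hFIk : FundamentalIdentityAlong k φk hφk)
    {z : E} (hz : z ∈ SE.Ov) (htr : Transcendental k (SE.red z))
    (hdeg : Divisor.degree (poleDiv SE.hFk (SE.red z)) = Divisor.degree (poleDiv SE.hF z))
    {c : K} (hc : c ∈ SE.A) (W : Place K F)
    (hW : 0 < (W.restrictAlong φ hφ).ord (z - algebraMap K E c)) :
    0 ≤ ((r W).restrictAlong φk hφk).ord (SE.red z) := by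
  have hx : φ z ∈ SF.Ov := (C.mem_iff z).mpr hz
  have hredx : SF.red (φ z) = φk (SE.red z) := C.red_map z hz
  have htrx : Transcendental k (SF.red (φ z)) := by
    rw [hredx]
    exact wd_transcendental_map htr
  have hdegx : Divisor.degree (poleDiv SF.hFk (SF.red (φ z))) =
      Divisor.degree (poleDiv SF.hF (φ z)) := by
    rw [hredx, degree_poleDiv_map SE.hFk SF.hFk φk hφk hFIk,
      degree_poleDiv_map SE.hF SF.hF φ hφ hFIK, hdeg, C.finrank_eq]
  have hcF : c ∈ SF.A := C.A_eq ▸ hc
  have hW' : 0 < W.ord (φ z - algebraMap K F c) := by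
    have h1 : φ z - algebraMap K F c = φ (z - algebraMap K E c) := by
      rw [map_sub, φ.commutes]
    rw [h1, Place.ord_restrictAlong φ hφ]
    have he := ramificationIndexAlong_pos φ hφ W
    have he' : (0 : ℤ) < (W.ramificationIndexAlong φ : ℤ) := by exact_mod_cast he
    exact mul_pos he' hW
  have h2 := hr.ord_red_sub_pos hx htrx hdegx hcF hW'
  have h3 : SF.red (φ z) - algebraMap k Fk (SF.res ⟨c, hcF⟩) =
      φk (SE.red z - algebraMap k Ek (SF.res ⟨c, hcF⟩)) := by
    rw [map_sub, φk.commutes, hredx]
  rw [h3, Place.ord_restrictAlong φk hφk] at h2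
  have h4 : 0 < ((r W).restrictAlong φk hφk).ord
      (SE.red z - algebraMap k Ek (SF.res ⟨c, hcF⟩)) := by
    by_contra hcon
    have hle : ((r W).restrictAlong φk hφk).ord
      (SE.red z - algebraMap k Ek (SF.res ⟨c, hcF⟩)) ≤ 0 := not_lt.mp hcon
    have he : (0 : ℤ) ≤ ((r W).ramificationIndexAlong φk : ℤ) := Int.natCast_nonneg _
    have := mul_nonpos_of_nonneg_of_nonpos he hle
    omega
  exact wd_ord_nonneg_of_sub _ h4.le (by rw [Fermat.Agent.S24Res.ord_algebraMap])

/-- **Seat W**: the reduction of places of `F` is compatible with the restriction to `E`. -/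
theorem wellDefined (C : Compat SE SF φ φk) (hN1 : NormRed SE SF φ φk)
    (hN2 : NormDegLe SE SF φ) (hL : RegularLift SF) (hr : IsReduction SF r)
    [HasPrincipalDivisors K F] [HasPrincipalDivisors k Fk]
    (hFIK : FundamentalIdentityAlong K φ hφ) (hFIk : FundamentalIdentityAlong k φk hφk) :
    WellDefined φ φk hφ hφk r := by
  intro P' P'' hP
  by_contra hne
  obtain ⟨s, hs1, hs2⟩ := wd_exists_sep SE.hFk _ _ hne
  have hstr : Transcendental k s := wd_transcendental _ hs1.ne'
  obtain ⟨n, hn, t, ht, hredt, hdegt⟩ := hL (φk s) (wd_transcendental_map hstr)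
  obtain ⟨hy, hredy⟩ := hN1 t ht
  have hN2t := hN2 t
  letI := algebraAlong φ
  letI := algebraAlong φk
  set y : E := Algebra.norm E t with hydef
  set d : ℕ := finrankAlong k φk with hd
  have hdpos : 0 < d := by
    haveI : Module.Finite Ek Fk := C.finite_k
    exact Module.finrank_pos
  -- the reduction of `y`
  have hredy' : SE.red y = s ^ (n * d) := by
    rw [hredy, hredt, ← map_pow]
    have h1 : φk (s ^ n) = algebraMap Ek Fk (s ^ n) := rfl
    rw [h1, Algebra.norm_algebraMap, ← pow_mul]
    rfl
  have hm : 0 < n * d := Nat.mul_pos hn hdpos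
  have hm' : (0 : ℤ) < ((n * d : ℕ) : ℤ) := by exact_mod_cast hm
  have hy1 : 0 < ((r P').restrictAlong φk hφk).ord (SE.red y) := by
    rw [hredy', wd_ord_pow]
    exact mul_pos hm' hs1
  have hy2 : ((r P'').restrictAlong φk hφk).ord (SE.red y) < 0 := by
    rw [hredy', wd_ord_pow]
    exact mul_neg_of_pos_of_neg hm' hs2
  have htr : Transcendental k (SE.red y) := wd_transcendental _ hy1.ne'
  -- the degree of `y`
  have hdeg : Divisor.degree (poleDiv SE.hFk (SE.red y)) = Divisor.degree (poleDiv SE.hF y) := by
    refine le_antisymm (degree_poleDiv_red_le SE hy htr) ?_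
    refine hN2t.trans ?_
    rw [hdegt, ← map_pow, degree_poleDiv_map SE.hFk SF.hFk φk hφk hFIk, hredy', pow_mul,
      wd_poleDiv_pow SE.hFk (s ^ n) d, map_nsmul, nsmul_eq_mul]
  -- the inverse of `y`
  have hred0 : SE.red y ≠ 0 := by
    intro h0
    rw [h0, Place.ord_zero] at hy1
    exact lt_irrefl _ hy1
  have hy0 : y ≠ 0 := SE.ne_zero_of_red_ne_zero hred0
  have hyinv : y⁻¹ ∈ SE.Ov := SE.inv_mem_of_red_ne_zero hred0
  have hredinv : SE.red y⁻¹ = (SE.red y)⁻¹ := SE.red_inv hy hyinv hy0
  have htrinv : Transcendental k (SE.red y⁻¹) := by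
    rw [hredinv]
    intro halg
    exact htr (by simpa using halg.inv)
  have hdeginv : Divisor.degree (poleDiv SE.hFk (SE.red y⁻¹)) =
      Divisor.degree (poleDiv SE.hF y⁻¹) := by
    rw [hredinv, fi_degree_zeroDiv, fi_degree_zeroDiv, hdeg]
  -- the two consequences of the value lemma
  have keyA : ∀ c : K, c ∈ SE.A → ¬ 0 < (P''.restrictAlong φ hφ).ord (y - algebraMap K E c) := by
    intro c hc hpos
    have := wd_value C hr hFIK hFIk hy htr hdeg hc P'' hpos
    omega
  have keyB : ∀ c : K, c ∈ SE.A → ¬ 0 < (P'.restrictAlong φ hφ).ord (y⁻¹ - algebraMap K E c) := by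
    intro c hc hpos
    have := wd_value C hr hFIK hFIk hyinv htrinv hdeginv hc P' hpos
    rw [hredinv, Place.ord_inv] at this
    omega
  -- the value of `y` at `P`
  set P := P'.restrictAlong φ hφ with hPdef
  rcases lt_or_ge (P.ord y) 0 with hneg | hnn
  · -- a pole: `y⁻¹` has a zero
    refine keyB 0 (zero_mem _) ?_
    rw [map_zero, sub_zero, Place.ord_inv]
    omega
  · obtain ⟨c, hc | hc⟩ := exists_const_sub SE.hF P hnn
    · -- `y` is constant: impossible
      have hcA : c ∈ SE.A := (SE.mem_Ov_iff c).mp (hc ▸ hy)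
      apply htr
      rw [hc, SE.red_algebraMap hcA]
      exact isAlgebraic_algebraMap _
    · by_cases hcA : c ∈ SE.A
      · exact keyA c hcA (hP ▸ hc)
      · -- `c ∉ A`: the value of `y⁻¹` is `c⁻¹ ∈ A`
        have hc0 : c ≠ 0 := by
          rintro rfl
          exact hcA (zero_mem _)
        have hcinv : c⁻¹ ∈ SE.A := (SE.A.mem_or_inv_mem c).resolve_left hcA
        refine keyB c⁻¹ hcinv ?_
        have hcE : algebraMap K E c ≠ 0 := (map_ne_zero (algebraMap K E)).mpr hc0
        have hne0 : y - algebraMap K E c ≠ 0 := by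
          intro h0
          rw [h0, Place.ord_zero] at hc
          exact lt_irrefl _ hc
        have hyord : P.ord y = 0 := by
          by_contra hcon
          have hpos : 0 < P.ord y := lt_of_le_of_ne hnn (Ne.symm hcon)
          -- then `c = y - (y - c)` has positive order
          have h1 : 0 < P.ord (algebraMap K E c) := by
            have h2 : algebraMap K E c = y + -(y - algebraMap K E c) := by ring
            have hmy := (Fermat.Agent.S24Res.mem_maximalIdeal_iff_ord_pos P
              (a := ⟨y, Fermat.Agent.S24Res.mem_of_ord_nonneg P hpos.le⟩)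
              (fun h => hy0 (congrArg Subtype.val h))).mpr hpos
            have hmc := (Fermat.Agent.S24Res.mem_maximalIdeal_iff_ord_pos P
              (a := ⟨y - algebraMap K E c, Fermat.Agent.S24Res.mem_of_ord_nonneg P hc.le⟩)
              (fun h => hne0 (congrArg Subtype.val h))).mpr hc
            have hsub := Ideal.sub_mem _ hmy hmc
            have hcoe : ((⟨y, Fermat.Agent.S24Res.mem_of_ord_nonneg P hpos.le⟩ -
                ⟨y - algebraMap K E c, Fermat.Agent.S24Res.mem_of_ord_nonneg P hc.le⟩ :
                P.toValuationSubring) : E) = algebraMap K E c := by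
              show y - (y - algebraMap K E c) = _
              ring
            have hne' : (⟨y, Fermat.Agent.S24Res.mem_of_ord_nonneg P hpos.le⟩ -
                ⟨y - algebraMap K E c, Fermat.Agent.S24Res.mem_of_ord_nonneg P hc.le⟩ :
                P.toValuationSubring) ≠ 0 := by
              intro h0
              apply hcE
              rw [← hcoe, h0]
              rfl
            have := (Fermat.Agent.S24Res.mem_maximalIdeal_iff_ord_pos P hne').mp hsub
            rwa [hcoe] at this
          rw [Fermat.Agent.S24Res.ord_algebraMap] at h1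
          exact lt_irrefl _ h1
        have h3 : y⁻¹ - algebraMap K E c⁻¹ =
            -(y - algebraMap K E c) * (y⁻¹ * (algebraMap K E c)⁻¹) := by
          rw [map_inv₀]
          field_simp
          ring
        rw [h3, P.ord_mul (neg_ne_zero.mpr hne0)
          (mul_ne_zero (inv_ne_zero hy0) (inv_ne_zero hcE)),
          P.ord_mul (inv_ne_zero hy0) (inv_ne_zero hcE), P.ord_inv, P.ord_inv, hyord,
          Fermat.Agent.S24Res.ord_algebraMap]
        have h4 : P.ord (-(y - algebraMap K E c)) = P.ord (y - algebraMap K E c) := by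
          have : -(y - algebraMap K E c) = (y - algebraMap K E c) * algebraMap K E (-1) := by
            rw [map_neg, map_one]; ring
          rw [this, P.ord_mul hne0 (by rw [map_neg, map_one]; exact neg_ne_zero.mpr one_ne_zero),
            Fermat.Agent.S24Res.ord_algebraMap, add_zero]
        rw [h4]
        omega

end Fermat.Agent.RedTr
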