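/-
Package RedTr (helper5): ASSEMBLY (abstract).  From Deuring's reduction `r` of the places of `F`
(genus equality for `F`) and a compatible finite extension `E ⊆ F`: a map `rE` of the places of `E`
with the PUSH property, `rE (P'|_E) = (r P')|_{E_k}`.
-/
import Mathlib
import Fermat.Agent.Lib.RedTr.WellDef
import Fermat.Agent.Lib.RedTr.NormRed
import Fermat.Agent.Lib.RedTr.RegLift

set_option autoImplicit false
set_option linter.style.haveILetI false
set_option linter.unusedSectionVars false

noncomputable section

open AlgebraicCurve Fermat.Agent.RR Fermat.Agent.Deuring Fermat.Agent.FF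

namespace Fermat.Agent.RedTr

variable {K E F k Ek Fk : Type*} [Field K] [Field E] [Field F] [Algebra K E] [Algebra K F]
  [Field k] [Field Ek] [Field Fk] [Algebra k Ek] [Algebra k Fk]

variable {SE : ValSetup K E k Ek} {SF : ValSetup K F k Fk} {φ : E →ₐ[K] F} {φk : Ek →ₐ[k] Fk}
  {hφ : φ.toRingHom.IsIntegral} {hφk : φk.toRingHom.IsIntegral}
  {r : Place K F → Place k Fk}

/-- the transferred map of places. -/
theorem exists_compatible (C : Compat SE SF φ φk) (hN2 : NormDegLe SE SF φ)
    (hr : IsReduction SF r) (hg : genusFF K F = genusFF k Fk)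
    [HasPrincipalDivisors K F] [HasPrincipalDivisors k Fk]
    (hFIK : FundamentalIdentityAlong K φ hφ) (hFIk : FundamentalIdentityAlong k φk hφk) :
    ∃ rE : Place K E → Place k Ek,
      ∀ P' : Place K F, rE (P'.restrictAlong φ hφ) = (r P').restrictAlong φk hφk := by
  have hW : WellDefined φ φk hφ hφk r :=
    wellDefined C (normRed C) hN2 (regularLift hr hg) hr hFIK hFIk
  have hex : ∀ P : Place K E, ∃ w : Place K F, w.restrictAlong φ hφ = P :=
    exists_restrictAlong_eq SE.hF SF.hF φ hφ hFIK C.finite
  choose w hw using hex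
  exact ⟨fun P => (r (w P)).restrictAlong φk hφk, fun P' => hW _ _ (hw _)⟩

/-- **the transferred map of places has the push property.** -/
theorem exists_isPush (C : Compat SE SF φ φk) (hN2 : NormDegLe SE SF φ)
    (hr : IsReduction SF r) (hg : genusFF K F = genusFF k Fk)
    [HasPrincipalDivisors K F] [HasPrincipalDivisors k Fk]
    (hFIK : FundamentalIdentityAlong K φ hφ) (hFIk : FundamentalIdentityAlong k φk hφk)
    (hPD : PushDown SE φ φk hφ hφk r) :
    ∃ rE : Place K E → Place k Ek, IsPush SE rE := by
  obtain ⟨rE, h⟩ := exists_compatible C hN2 hr hg hFIK hFIk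
  exact ⟨rE, hPD rE h⟩

end Fermat.Agent.RedTr
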