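/-
Package RedTr (helper5): FINAL abstract statement.  `E ⊆ F` a finite extension of function fields
(Riemann-Roch setting, places of degree one) with compatible constant reductions of the same
degree (`Compat`), `r` Deuring's reduction of the places of `F` (genus equality for `F` only).
Then there is a map `rE` of the places of `E` with the PUSH property, compatible with `r`.
-/
import Mathlib
import Fermat.Agent.Lib.RedTr.Main
import Fermat.Agent.Lib.RedTr.PushDown
import Fermat.Agent.Lib.RedTr.FundIdK

set_option autoImplicit false
set_option linter.style.haveILetI false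
set_option linter.unusedSectionVars false

noncomputable section

open AlgebraicCurve Fermat.Agent.RR Fermat.Agent.Deuring Fermat.Agent.FF

namespace Fermat.Agent.RedTr

variable {K E F k Ek Fk : Type*} [Field K] [Field E] [Field F] [Algebra K E] [Algebra K F]
  [Field k] [Field Ek] [Field Fk] [Algebra k Ek] [Algebra k Fk]

/-- a finite morphism of fields is integral. -/
theorem isIntegral_of_finiteAlong {φ : E →ₐ[K] F} (hfin : FiniteAlong K φ) :
    φ.toRingHom.IsIntegral := by
  letI := algebraAlong φ
  haveI : Module.Finite E F := hfin
  intro z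
  exact (Algebra.IsIntegral.of_finite E F).isIntegral z

variable {SE : ValSetup K E k Ek} {SF : ValSetup K F k Fk} {φ : E →ₐ[K] F} {φk : Ek →ₐ[k] Fk}
  {r : Place K F → Place k Fk}

/-- **RedTr, abstract form**: the transferred reduction of places. -/
theorem exists_isPush_compatible (C : Compat SE SF φ φk) (hN2 : NormDegLe SE SF φ)
    (hr : IsReduction SF r) (hg : genusFF K F = genusFF k Fk)
    (hφ : φ.toRingHom.IsIntegral) (hφk : φk.toRingHom.IsIntegral) :
    ∃ rE : Place K E → Place k Ek, IsPush SE rE ∧
      ∀ P' : Place K F, rE (P'.restrictAlong φ hφ) = (r P').restrictAlong φk hφk := by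
  haveI : HasPrincipalDivisors K F := hasPD SF.hF
  haveI : HasPrincipalDivisors k Fk := hasPD SF.hFk
  have hFIK : FundamentalIdentityAlong K φ hφ := fundIdK SE.hF SF.hF φ hφ
  have hFIk : FundamentalIdentityAlong k φk hφk := fundIdK SE.hFk SF.hFk φk hφk
  obtain ⟨rE, h⟩ := exists_compatible C hN2 hr hg hFIK hFIk
  exact ⟨rE, pushDown C hr hFIK hFIk rE h, h⟩

end Fermat.Agent.RedTr
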