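/-
Package RedTr (helper5), seat N2 (helper30): the degree of the pole divisor does not increase under
the norm,  `deg (N_{F/E} t)_∞ ≤ deg (t)_∞`.

Proof.  The norm formula `pushforward (div t) = div (N t)` (`HeckeInputs.hi_normFormulaAlong`, `K`
algebraically closed of characteristic `0`) and `div t ≥ - (t)_∞` give
`div (N t) ≥ - pushforward (t)_∞`, and `pushforward (t)_∞ ≥ 0`; so
`(N t)_∞ ≤ pushforward (t)_∞`, and the pushforward preserves degrees.

* `normDegLe_of_normFormula` : `NormDegLe` from the norm formula (no hypothesis on `K`);
* `normDegLe`                : `NormDegLe` for function fields over an algebraically closed field of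
                               characteristic `0`.
-/
import Mathlib
import Fermat.Agent.Lib.RedTr.Defs
import Fermat.Agent.Lib.HeckeInputs.Modular

set_option autoImplicit false
set_option linter.style.haveILetI false

noncomputable section

open AlgebraicCurve Fermat.Agent.RR Fermat.Agent.Deuring Fermat.Agent.FF

namespace Fermat.Agent.RedTr

variable {K E F k Ek Fk : Type*} [Field K] [Field E] [Field F] [Algebra K E] [Algebra K F]
  [Field k] [Field Ek] [Field Fk] [Algebra k Ek] [Algebra k Fk]

/-- the pole divisor of `0` is `0`. -/
theorem nd_poleDiv_zero (h : IsRRField K E) : poleDiv h (0 : E) = 0 := by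
  ext v
  rw [poleDiv_apply, Place.ord_zero]
  simp

/-- the pushforward of an effective divisor is effective. -/
theorem nd_pushforward_nonneg [Algebra E F] [IsScalarTower K E F] [Algebra.IsIntegral E F]
    {D : Divisor K F} (hD : 0 ≤ D) : 0 ≤ Divisor.pushforward E D := by
  classical
  rw [Finsupp.le_def]
  intro v
  rw [Divisor.pushforward_apply]
  refine Finset.sum_nonneg fun w _ => ?_
  split_ifs
  · exact mul_nonneg (Finsupp.le_def.mp hD w) (Int.natCast_nonneg _)
  · exact le_refl _

/-- **Seat N2, core**: `NormDegLe` from the norm formula. -/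
theorem normDegLe_of_normFormula (SE : ValSetup K E k Ek) (SF : ValSetup K F k Fk)
    (φ : E →ₐ[K] F) (hfin : FiniteAlong K φ) (hN : NormFormulaAlong K φ hfin) :
    NormDegLe SE SF φ := by
  letI := algebraAlong φ
  haveI := isScalarTower_along φ
  haveI : Module.Finite E F := hfin
  intro t
  show Divisor.degree (poleDiv SE.hF (Algebra.norm E t)) ≤ Divisor.degree (poleDiv SF.hF t)
  by_cases ht : t = 0
  · subst ht
    rw [Algebra.norm_zero, nd_poleDiv_zero SE.hF, nd_poleDiv_zero SF.hF, map_zero, map_zero]
  · have hpf : ∀ v : Place K E,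
        Divisor.pushforward E (divOf SF.hF t) v = v.ord (Algebra.norm E t) :=
      fun v => hN t ht (divOf SF.hF t) (fun w => divOf_apply SF.hF t w) v
    have h1 : 0 ≤ Divisor.pushforward E (poleDiv SF.hF t) :=
      nd_pushforward_nonneg (poleDiv_nonneg SF.hF t)
    have h2 : 0 ≤ Divisor.pushforward E (divOf SF.hF t + poleDiv SF.hF t) := by
      apply nd_pushforward_nonneg
      have := neg_poleDiv_le_divOf SF.hF t
      rw [Finsupp.le_def] at this ⊢
      intro w
      have hw := this w
      rw [Finsupp.neg_apply] at hw
      rw [Finsupp.add_apply, Finsupp.coe_zero, Pi.zero_apply]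
      linarith
    rw [map_add] at h2
    have hle : poleDiv SE.hF (Algebra.norm E t) ≤ Divisor.pushforward E (poleDiv SF.hF t) := by
      rw [Finsupp.le_def]
      intro v
      have h1v := Finsupp.le_def.mp h1 v
      have h2v := Finsupp.le_def.mp h2 v
      rw [Finsupp.add_apply, hpf v] at h2v
      rw [Finsupp.coe_zero, Pi.zero_apply] at h1v h2v
      rw [poleDiv_apply]
      exact max_le (by linarith) h1v
    calc Divisor.degree (poleDiv SE.hF (Algebra.norm E t))
        ≤ Divisor.degree (Divisor.pushforward E (poleDiv SF.hF t)) :=
          degree_le_of_le SE.hF hle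
      _ = Divisor.degree (poleDiv SF.hF t) := Divisor.degree_pushforward _

/-- **Seat N2**: `deg (N t)_∞ ≤ deg (t)_∞` for a morphism of function fields in one variable over
an algebraically closed field of characteristic `0`. -/
theorem normDegLe [IsAlgClosed K] [CharZero K] (SE : ValSetup K E k Ek) (SF : ValSetup K F k Fk)
    (φ : E →ₐ[K] F) {x : E} (h : Fermat.Agent.S24Diff.IsFunctionFieldOver K E x) {x' : F}
    (h' : Fermat.Agent.S24Diff.IsFunctionFieldOver K F x') : NormDegLe SE SF φ := by
  have hfin : FiniteAlong K φ := Fermat.Agent.HeckeInputs.hi_finiteAlong φ h.transcendental h'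
  haveI : HasPrincipalDivisors K F := Fermat.Agent.S24Diff.hasPrincipalDivisors h'
  exact normDegLe_of_normFormula SE SF φ hfin
    (Fermat.Agent.HeckeInputs.hi_normFormulaAlong φ hfin h h')

end Fermat.Agent.RedTr
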