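/-
Package RedTr (helper5): the MODULAR instance.  `N ∣ M`, `ℓ ∤ M`, `A` a place of `ℚ̄` over `ℓ`,
genus equality at level `M`: the places of `X₀(N)` have a reduction map with the push property,
compatible with Deuring's reduction at level `M`.
-/
import Mathlib
import Fermat.Agent.Lib.RedTr.Final
import Fermat.Agent.Lib.RedTr.NormDeg
import Fermat.Agent.F3.Transfer.Wrap
import Fermat.Agent.S24.GlobalDatum

set_option autoImplicit false
set_option linter.style.haveILetI false
set_option linter.unusedSectionVars false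
set_option synthInstance.maxHeartbeats 400000

noncomputable section

open AlgebraicCurve ModularCurve Fermat.Agent.RR Fermat.Agent.Deuring Fermat.Agent.FF
  Fermat.Agent.GaussInt Fermat.Agent.F3T

namespace Fermat.Agent.RedTr

variable (A : ValuationSubring (AlgebraicClosure ℚ)) (ℓ N M : ℕ) [NeZero N] [NeZero M]
variable (hℓ : ℓ.Prime) (hA : A.LiesOverPrime ℓ) (hℓN : ¬ ℓ ∣ N) (hℓM : ¬ ℓ ∣ M) (h : N ∣ M)

/-- the transferred reduction of the places of `X₀(N)`, from a `Compat` along the inclusion
`F_N ⊆ F_M`. -/
theorem exists_isPush_modular_of_compat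
    (φk : modularFunctionFieldFullC (IsLocalRing.ResidueField A) N →ₐ[IsLocalRing.ResidueField A]
      modularFunctionFieldFullC (IsLocalRing.ResidueField A) M)
    (C : Compat (modularValSetup A ℓ N hℓ hA hℓN) (modularValSetup A ℓ M hℓ hA hℓM)
      (inclBar h) φk)
    (hg : genusFF (AlgebraicClosure ℚ) (modularFunctionFieldBar M) =
      genusFF (IsLocalRing.ResidueField A)
        (modularFunctionFieldFullC (IsLocalRing.ResidueField A) M)) :
    ∃ rE : Place (AlgebraicClosure ℚ) (modularFunctionFieldBar N) →
        Place (IsLocalRing.ResidueField A)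
          (modularFunctionFieldFullC (IsLocalRing.ResidueField A) N),
      IsPush (modularValSetup A ℓ N hℓ hA hℓN) rE := by
  obtain ⟨r, hr⟩ := exists_isReduction_modular A ℓ M hℓ hA hℓM hg
  have hN2 : NormDegLe (modularValSetup A ℓ N hℓ hA hℓN) (modularValSetup A ℓ M hℓ hA hℓM)
      (inclBar h) :=
    normDegLe _ _ _ (Fermat.Agent.S24.isFunctionFieldOver_jBar N)
      (Fermat.Agent.S24.isFunctionFieldOver_jBar M)
  obtain ⟨rE, hpush, -⟩ := exists_isPush_compatible C hN2 hr hg (inclBar_isIntegral h)
    (isIntegral_of_finiteAlong C.finite_k)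
  exact ⟨rE, hpush⟩

end Fermat.Agent.RedTr
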